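import Fermat.Agent.CFT.Global.GlobalInvDef
import Fermat.Agent.CFT.Global.IdeleGalMap
import Fermat.Agent.CFT.Global.IdeleCoh
import Fermat.Agent.CFT.LayerConj
import Fermat.Agent.CFT.Tate.InnerTrivial

/-!
# WIP skeleton (statements only): properties of the idele invariant `invJ`

Each `sorry` is a node; the final versions go to the files named in the comments.
-/

set_option autoImplicit false
set_option linter.unusedSectionVars false
set_option linter.unusedVariables false

open CategoryTheory groupCohomology

noncomputable section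

namespace Fermat.Agent.CFT.WIP

open Fermat.Agent.CFT GaloisTower

variable (I : LocalInvFamily)

section OneLayer

variable (K : Type) [Field K] {L : Type} [Field L] [Algebra K L] [Normal K L]

/-- (T2a) [file Global/GlobalInvConj.lean] changing the embedding by an automorphism of `L/K` does
not change the local invariant (inner automorphisms act trivially on `H²`). -/
theorem semiLocalInvAt_comp (q : Nat.Primes) (τ' : LocalEmb ((q : Nat.Primes) : ℕ) L)
    (s : L ≃ₐ[K] L) :
    semiLocalInvAt I K q (τ'.comp (s : L →+* L)) = semiLocalInvAt I K q τ' := sorry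

/-- (T2b) [file Global/GlobalInvConj.lean] changing the embedding by an element of
`Gal(ℚ̄_q/ℚ_q)` does not change the local invariant (transport of structure, LCF-T). -/
theorem semiLocalInvAt_smul (hI : ∀ q, (I q).IsConjInvariant) (q : Nat.Primes)
    (γ : Gq ((q : Nat.Primes) : ℕ)) (τ' : LocalEmb ((q : Nat.Primes) : ℕ) L) :
    semiLocalInvAt I K q (γ • τ') = semiLocalInvAt I K q τ' := sorry

/-- (T2c) the semi-local invariant can be computed with any system of lifts of the places. -/
theorem semiLocalInv_eq_finsum (hI : ∀ q, (I q).IsConjInvariant) (q : Nat.Primes)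
    [Finite (LocalPlace ((q : Nat.Primes) : ℕ) K)]
    (t : LocalPlace ((q : Nat.Primes) : ℕ) K → LocalEmb ((q : Nat.Primes) : ℕ) L)
    (ht : ∀ ω, (localEmbRestrict K (t ω)).place = ω)
    (x : groupCohomology (semiLocalRep L (L ≃ₐ[K] L) ((q : Nat.Primes) : ℕ)) 2) :
    semiLocalInv I K q x = ∑ᶠ ω, semiLocalInvAt I K q (t ω) x := sorry

variable [NumberField K] [NumberField L]

/-- (T1) [file Global/GlobalInvSupport.lean] every class has finite support, given that the
integral semi-local units have trivial `H²` at almost all primes (unramified primes). -/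
theorem hasFiniteInvSupport
    (hU2 : ∀ᶠ q : Nat.Primes in Filter.cofinite,
      H2TrivialOn (L ≃ₐ[K] L) (semiLocalIntegral ((q : Nat.Primes) : ℕ) L))
    (x : groupCohomology (ideleRep L (L ≃ₐ[K] L)) 2) : HasFiniteInvSupport I K x := sorry

/-- (T6) [file Global/GlobalInvSurj.lean] if some place has full local degree, the idele invariant
takes the value `1/[L:K]`. -/
theorem exists_invJFun_eq (q : Nat.Primes) (τ' : LocalEmb ((q : Nat.Primes) : ℕ) L)
    (hfull : decompAt K τ' = ⊤) :
    ∃ x : groupCohomology (ideleRep L (L ≃ₐ[K] L)) 2,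
      invJFun I K x = (((1 : ℚ) / (Module.finrank K L : ℚ) : ℚ) : AddCircle (1 : ℚ)) := sorry

/-- (T6') the idele invariant is killed by the degree. -/
theorem finrank_nsmul_invJFun (x : groupCohomology (ideleRep L (L ≃ₐ[K] L)) 2) :
    Module.finrank K L • invJFun I K x = 0 := sorry

end OneLayer

section Square

variable (K₁ L₁ K₂ L₂ : Type) [Field K₁] [Field L₁] [Field K₂] [Field L₂]
  [Algebra K₁ L₁] [Algebra K₂ L₂] [Algebra K₁ K₂] [Algebra L₁ L₂] [Algebra K₁ L₂]
  [IsScalarTower K₁ K₂ L₂] [IsScalarTower K₁ L₁ L₂] [Normal K₁ L₁] [Normal K₂ L₂]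
  [NumberField K₁] [NumberField L₁] [NumberField K₂] [NumberField L₂]

/-- (T34) [file Global/GlobalInvFunct.lean] base change: the idele invariant is multiplied by
`[K₂:K₁]` under the Galois functoriality map of a square (inflation: `K₁ = K₂`, factor `1`;
restriction: `L₁ = L₂`). -/
theorem invJFun_ideleGalMap (hI : ∀ q, (I q).IsConjInvariant)
    (x : groupCohomology (ideleRep L₁ (L₁ ≃ₐ[K₁] L₁)) 2) :
    invJFun I K₂ ((ideleGalMap K₁ L₁ K₂ L₂ 2).hom x) =
      Module.finrank K₁ K₂ • invJFun I K₁ x := sorry

end Square

end Fermat.Agent.CFT.WIP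

end
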